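-- Statement S43.
import Fermat.Statements.S43
import Fermat.Agent.Lower.Frey43

/-!
# S43: `FreyPackage.level_lowering_odd_prime_of_conductorLevel` (milestone row 37)

Level lowering at q (Frey-curve form): if the Frey representation is irreducible, modular of a
conductor level N and unramified at an odd prime q ≠ p dividing N, then q can be removed from the
level.

The proof rests on `Lower/Frey43`.
-/

set_option autoImplicit false
open WeierstrassCurve WeierstrassCurve.Affine WeierstrassCurve.Affine.Point
open CuspForm ModularFormClass UpperHalfPlane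
open FreyPackage

namespace Fermat.Agent.S43

theorem result (P : FreyPackage) {N q : ℕ} (hcond : P.IsConductorLevel N) (hq : q.Prime) (hq2 : q ≠ 2) (hqp : q ≠ P.p) (hqN : q ∣ N) (hirr : GaloisRepIsIrreducible (K := AlgebraicClosure ℚ) ℚ P.freyCurve P.p) (hmod : P.ModularRepOfLevel N) (hunr : P.GaloisRepUnramifiedAt q) : ∃ M : ℕ, M ∣ N ∧ ¬ q ∣ M ∧ P.ModularRepOfLevel M := by
  exact FLTAgent.Lower.level_lowering_odd P hcond hq hqp hirr hmod hunr

end Fermat.Agent.S43
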