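-- Statement S44.
import Fermat.Statements.S44
import Fermat.Agent.MazurP.Main

/-!
# S44: `FreyPackage.level_lowering_at_p_of_conductorLevel` (milestone row 38)

Mazur's principle at p (Frey-curve form): if the Frey representation is irreducible and modular of a
conductor level N divisible by p, then p can be removed from the level.

The proof rests on `MazurP/Main`.
-/

set_option autoImplicit false
open WeierstrassCurve WeierstrassCurve.Affine WeierstrassCurve.Affine.Point
open CuspForm ModularFormClass UpperHalfPlane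
open FreyPackage

namespace Fermat.Agent.S44

theorem result (P : FreyPackage) {N : ℕ} (hcond : P.IsConductorLevel N) (hpN : P.p ∣ N) (hirr : GaloisRepIsIrreducible (K := AlgebraicClosure ℚ) ℚ P.freyCurve P.p) (hmod : P.ModularRepOfLevel N) : ∃ M : ℕ, M ∣ N ∧ ¬ P.p ∣ M ∧ P.ModularRepOfLevel M := by
  haveI : Fact P.p.Prime := ⟨P.pp⟩
  haveI : NeZero P.p := ⟨P.pp.ne_zero⟩
  have habc := hcond.p_dvd_abc hpN
  obtain ⟨M, rfl⟩ := hpN
  rw [mul_comm] at hcond hmod
  have hpM : ¬ P.p ∣ M := fun h => hcond.sq_not_dvd P.pp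
    (by rw [pow_two]; exact Nat.mul_dvd_mul_right h P.p)
  haveI : NeZero M := ⟨fun h => hpM (h ▸ dvd_zero P.p)⟩
  obtain ⟨f, W, m, hf, hW, hm, hpm, hcoeff⟩ := hmod
  have hΔ0 : W.Δ ≠ 0 := by
    obtain ⟨C, hC⟩ := hW
    haveI : P.freyCurve.IsElliptic :=
      FLTAgent.EllP.frey_map_eq P ▸
        FLTAgent.EllTorsion.isElliptic_map_rat (FLTAgent.EllP.frey_Δ_ne_zero P)
    intro h
    have h1 : (C • P.freyCurve).Δ ≠ 0 := (C • P.freyCurve).isUnit_Δ.ne_zero
    rw [hC, WeierstrassCurve.map_Δ, h, _root_.map_zero] at h1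
    exact h1 rfl
  obtain ⟨g, n, hg, hn, hpn, hcoeff'⟩ :=
    FLTAgent.MazurP.isResiduallyModularOfLevel_of_ramData W hΔ0 P.hp5
      (FLTAgent.MazurP.modRepIsIrreducible_of_frey P hW hirr)
      (fun A hA => FLTAgent.MazurP.nonempty_ramData_frey P habc hW hA) hpM
      ⟨f, m, hf, hm, hpm, hcoeff⟩
  exact ⟨M, dvd_mul_left M P.p, hpM, g, W, n, hg, hW, hn, hpn, hcoeff'⟩

end Fermat.Agent.S44
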