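-- Statement S07.
import Fermat.Statements.S07
import Fermat.Agent.Small2.LowLevel

/-!
# S07: `ModularForm.S2_Gamma0_2_eq_zero` (milestone row 7)

Every weight-2 cusp form of level Γ₀(2) is zero.

The proof rests on `Small2/LowLevel`.
-/

set_option autoImplicit false
open WeierstrassCurve WeierstrassCurve.Affine WeierstrassCurve.Affine.Point
open CuspForm ModularFormClass UpperHalfPlane
open ModularForm

namespace Fermat.Agent.S07

theorem result (f : CuspForm (CongruenceSubgroup.Gamma0 2) 2) : f = 0 := by
  exact FLTAgent.Small2.cuspForm_eq_zero_of_small_index 2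
    (FLTAgent.Small2.index_Gamma0_two_le.trans (by norm_num)) f

end Fermat.Agent.S07
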