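-- Statement S08.
import Fermat.Statements.S08
import Fermat.Agent.Small2.LowLevel

/-!
# S08: `ModularForm.S2_Gamma0_one_eq_zero` (milestone row 7)

Every weight-2 cusp form of level Γ₀(1) is zero.

The proof rests on `Small2/LowLevel`.
-/

set_option autoImplicit false
open WeierstrassCurve WeierstrassCurve.Affine WeierstrassCurve.Affine.Point
open CuspForm ModularFormClass UpperHalfPlane
open ModularForm

namespace Fermat.Agent.S08

theorem result (f : CuspForm (CongruenceSubgroup.Gamma0 1) 2) : f = 0 := by
  refine FLTAgent.Small2.cuspForm_eq_zero_of_small_index 1 ?_ f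
  have h : CongruenceSubgroup.Gamma0 1 = ⊤ := by
    ext A; simp [CongruenceSubgroup.Gamma0_mem, Subsingleton.elim _ (0 : ZMod 1)]
  rw [h, Subgroup.index_top]; norm_num

end Fermat.Agent.S08
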