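-- Statement S29.
import Fermat.Statements.S29
import Fermat.Agent.Reps.Eigenform
import Fermat.Agent.Reps.Existence

/-!
# S29: `CuspForm.IsNormalizedEigenform.exists_residualGaloisRep_isAttachedTo` (milestone row 28)

A normalised weight-2 eigenform on Γ₀(N) has, for every prime p and every residue map of ℤ̄ to a
field of characteristic p, an attached mod-p Galois representation, unramified at all primes not
dividing Np.

The proof rests on `Reps/Eigenform`, `Reps/Existence`.
-/

set_option autoImplicit false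
open CuspForm CuspForm.IsNormalizedEigenform

namespace Fermat.Agent.S29

theorem result
    {N : ℕ} {g : CuspForm (CongruenceSubgroup.Gamma0 N) 2} (hg : g.IsNormalizedEigenform)
    {p : ℕ} (hp : p.Prime) {k : Type} [Field k] [CharP k p]
    (φ : integralClosure ℤ ℂ →+* k) :
    ∃ ρ : ResidualGaloisRep k, ρ.IsAttachedTo g φ ∧
      ∀ ℓ : ℕ, ℓ.Prime → ¬ ℓ ∣ N * p → ρ.IsUnramifiedAt ℓ := by
  rcases Nat.eq_zero_or_pos N with rfl | hN
  · exact ⟨FLTAgent.Reps.trivialResidual k, fun ℓ _ h => absurd (dvd_zero ℓ) h,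
      fun ℓ _ h => absurd (by simp) h⟩
  · haveI : NeZero N := ⟨hN.ne'⟩
    haveI : Fact p.Prime := ⟨hp⟩
    obtain ⟨G⟩ := FLTAgent.Reps.nonempty_galModel N p
    exact FLTAgent.Reps.exists_residual_of_eigenform G hg φ

end Fermat.Agent.S29
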