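-- Statement S02.
import Fermat.Statements.S02

/-!
# S02: `FreyPackage.of_counterexample` (milestone row 2)

A solution of aᵖ + bᵖ = cᵖ in nonzero integers for a prime p ≥ 5 yields a Frey package.
-/

set_option autoImplicit false
open FreyPackage

namespace Fermat.Agent.S02

/-- A solution in coprime integers with `b` even and `a` odd yields a Frey package. -/
theorem of_coprime_even {a b c : ℤ} (ha : a ≠ 0) (hb : b ≠ 0) (hc : c ≠ 0) {p : ℕ} (pp : p.Prime)
    (hp5 : 5 ≤ p) (H : a ^ p + b ^ p = c ^ p) (hab : IsCoprime a b) (hb2 : 2 ∣ b) :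
    Nonempty FreyPackage := by
  have hpodd : Odd p := pp.odd_of_ne_two (by omega)
  have hb2' : (b : ZMod 2) = 0 := (ZMod.intCast_zmod_eq_zero_iff_dvd b 2).2 (by exact_mod_cast hb2)
  have ha2 : ¬ (2 : ℤ) ∣ a := by
    intro h
    have := hab.isUnit_of_dvd' h hb2
    rw [Int.isUnit_iff] at this
    omega
  have hgcd : ∀ x y : ℤ, IsCoprime x y → gcd x y = 1 := by
    intro x y hxy
    rw [← Int.coe_gcd, Int.isCoprime_iff_gcd_eq_one.1 hxy]
    rfl
  rcases (by omega : a % 4 = 3 ∨ a % 4 = 1) with h3 | h1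
  · refine ⟨⟨a, b, c, ha, hb, hc, p, pp, hp5, H, hgcd a b hab, ?_, hb2'⟩⟩
    have : ((a : ZMod 4)) = ((3 : ℤ) : ZMod 4) :=
      (ZMod.intCast_eq_intCast_iff_dvd_sub a 3 4).2 (by omega)
    simpa using this
  · refine ⟨⟨-a, -b, -c, neg_ne_zero.2 ha, neg_ne_zero.2 hb, neg_ne_zero.2 hc, p, pp, hp5, ?_,
      hgcd _ _ hab.neg_left.neg_right, ?_, ?_⟩⟩
    · rw [hpodd.neg_pow, hpodd.neg_pow, hpodd.neg_pow, ← H]; ring
    · have : (((-a : ℤ) : ZMod 4)) = ((3 : ℤ) : ZMod 4) :=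
        (ZMod.intCast_eq_intCast_iff_dvd_sub (-a) 3 4).2 (by omega)
      simpa using this
    · simp [hb2']

/-- A solution in coprime integers yields a Frey package. -/
theorem of_coprime {a b c : ℤ} (ha : a ≠ 0) (hb : b ≠ 0) (hc : c ≠ 0) {p : ℕ} (pp : p.Prime)
    (hp5 : 5 ≤ p) (H : a ^ p + b ^ p = c ^ p) (hab : IsCoprime a b) :
    Nonempty FreyPackage := by
  have hpodd : Odd p := pp.odd_of_ne_two (by omega)
  by_cases hb2 : (2 : ℤ) ∣ b
  · exact of_coprime_even ha hb hc pp hp5 H hab hb2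
  by_cases ha2 : (2 : ℤ) ∣ a
  · exact of_coprime_even hb ha hc pp hp5 (by rw [← H]; ring) hab.symm ha2
  -- both odd, so c is even
  have hc2 : (2 : ℤ) ∣ c := by
    have h1 : Odd (a ^ p) := (Int.not_even_iff_odd.1 (by rwa [even_iff_two_dvd])).pow
    have h2 : Odd (b ^ p) := (Int.not_even_iff_odd.1 (by rwa [even_iff_two_dvd])).pow
    have h3 : Even (c ^ p) := H ▸ h1.add_odd h2
    exact even_iff_two_dvd.1 (Int.even_pow.1 h3).1
  refine of_coprime_even ha (neg_ne_zero.2 hc) (neg_ne_zero.2 hb) pp hp5 ?_ ?_ hc2.neg_right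
  · rw [hpodd.neg_pow, hpodd.neg_pow, ← H]; ring
  · have h1 : IsCoprime (a ^ p) (b ^ p) := hab.pow
    have h2 : IsCoprime (a ^ p) (c ^ p) := by
      have := h1.add_mul_left_right 1
      rwa [mul_one, add_comm, H] at this
    exact ((IsCoprime.pow_iff pp.pos pp.pos).1 h2).neg_right

theorem result (a b c : ℤ) (ha : a ≠ 0) (hb : b ≠ 0) (hc : c ≠ 0) (p : ℕ) (pp : p.Prime) (hp5 : 5 ≤ p) (H : a ^ p + b ^ p = c ^ p) : Nonempty FreyPackage := by
  have hgpos : 0 < Int.gcd a b := Int.gcd_pos_of_ne_zero_left _ ha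
  obtain ⟨a', b', hcop, ha', hb'⟩ := Int.exists_gcd_one hgpos
  set g : ℤ := (Int.gcd a b : ℤ) with hg
  have hg0 : g ≠ 0 := by positivity
  have hgc : g ∣ c := by
    rw [← Int.pow_dvd_pow_iff pp.ne_zero, ← H, ha', hb', mul_pow, mul_pow]
    exact dvd_add (dvd_mul_left _ _) (dvd_mul_left _ _)
  obtain ⟨c', hc'⟩ := hgc
  have H' : a' ^ p + b' ^ p = c' ^ p := by
    apply mul_left_cancel₀ (pow_ne_zero p hg0)
    calc g ^ p * (a' ^ p + b' ^ p) = (a' * g) ^ p + (b' * g) ^ p := by ring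
      _ = c ^ p := by rw [← ha', ← hb']; exact H
      _ = g ^ p * c' ^ p := by rw [hc']; ring
  refine of_coprime ?_ ?_ ?_ pp hp5 H' (Int.isCoprime_iff_gcd_eq_one.2 hcop)
  · rintro rfl; simp at ha'; exact ha ha'
  · rintro rfl; simp at hb'; exact hb hb'
  · rintro rfl; simp at hc'; exact hc hc'

end Fermat.Agent.S02
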