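-- Statement S03.
import Fermat.Statements.S03
import Fermat.Agent.Main.Endgame

/-!
# S03: `FreyPackage.no_frey_package` (milestone row 3)

No Frey package exists (Fermat's Last Theorem for prime exponents p ≥ 5).

The proof rests on `Main/Endgame`.
-/

set_option autoImplicit false
open FreyPackage

namespace Fermat.Agent.S03

theorem result (P : FreyPackage) : False := by
  exact FLTAgent.Main.no_package P

end Fermat.Agent.S03
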