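-- Statement S06.
import Fermat.Statements.S06
import Fermat.Agent.Main.Endgame

/-!
# S06: `FreyPackage.modularRepOfConductorLevel` (milestone row 6)

The mod-p representation of the Frey curve is modular of some level N that is a conductor level of
the Frey package.

The proof rests on `Main/Endgame`.
-/

set_option autoImplicit false
open WeierstrassCurve WeierstrassCurve.Affine WeierstrassCurve.Affine.Point
open CuspForm ModularFormClass UpperHalfPlane
open FreyPackage

namespace Fermat.Agent.S06

theorem result (P : FreyPackage) : ∃ N : ℕ, P.IsConductorLevel N ∧ P.ModularRepOfLevel N := by
  exact FLTAgent.Main.frey_modularRep_conductorLevel P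

end Fermat.Agent.S06
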