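-- Statement S13.
import Fermat.Statements.S13
import Fermat.Agent.EllP.FreyCofixed

/-!
# S13: `FreyPackage.frey_reducible_hasCofixedLine` (milestone row 12)

If the mod-p representation of the Frey curve is reducible, it has a Galois-stable cofixed line.

The proof rests on `EllP/FreyCofixed`.
-/

set_option autoImplicit false
open WeierstrassCurve WeierstrassCurve.Affine WeierstrassCurve.Affine.Point
open CuspForm ModularFormClass UpperHalfPlane
open FreyPackage

namespace Fermat.Agent.S13

theorem result (P : FreyPackage) (hred : ¬ GaloisRepIsIrreducible (K := AlgebraicClosure ℚ) ℚ P.freyCurve P.p) : HasGaloisStableCofixedLine (K := AlgebraicClosure ℚ) ℚ P.freyCurve P.p := by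
  exact FLTAgent.EllP.frey_reducible_cofixed P hred

end Fermat.Agent.S13
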