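-- Statement S14.
import Fermat.Statements.S14
import Fermat.Agent.Thaine.Extension

/-!
# S14: `ExtCitation.extVanishingCts_of_three_le` (milestone row 13)

The Ext-vanishing property ExtVanishingCts p holds for every prime p ≥ 3: every admissible
extension 0 → ℤ/p → V → μ_p → 0 of Galois modules (continuous, unramified outside p, locally split
at p, as defined in the prelude) splits.

The proof rests on `Thaine/Extension`.
-/

set_option autoImplicit false
open ExtCitation

namespace Fermat.Agent.S14

theorem result {p : ℕ} [Fact p.Prime] (h3 : 3 ≤ p) :
    ExtCitation.ExtVanishingCts p := by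
  intro V _ _ _ _ C hadm
  exact FLTAgent.Thaine.extVanishing_main h3 V C hadm

end Fermat.Agent.S14
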