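-- Statement S09.
import Fermat.Statements.S09
import Fermat.Agent.MazurChain.Frey
import Fermat.Agent.S14
import Fermat.Agent.S10
import Fermat.Agent.S11
import Fermat.Agent.S13

/-!
# S09: `FreyPackage.Mazur_Frey` (milestone row 8)

Mazur: the mod-p Galois representation of the Frey curve is irreducible.

The proof rests on `MazurChain/Frey`, `S14`, `S10`, `S11`, `S13`.
-/

set_option autoImplicit false
open WeierstrassCurve WeierstrassCurve.Affine WeierstrassCurve.Affine.Point
open CuspForm ModularFormClass UpperHalfPlane
open FreyPackage

namespace Fermat.Agent.S09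

theorem result (P : FreyPackage) : GaloisRepIsIrreducible (K := AlgebraicClosure ℚ) ℚ P.freyCurve P.p := by
  have h5 := P.hp5
  exact FLTAgent.MazurChain.frey_irreducible P (Fermat.Agent.S13.result P) (Fermat.Agent.S10.result P)
    (Fermat.Agent.S11.result P) (@Fermat.Agent.S14.result P.p (Fact.mk P.pp) (by omega))

end Fermat.Agent.S09
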