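-- Statement S12.
import Fermat.Statements.S12
import Fermat.Agent.MazurChain.Frey
import Fermat.Agent.S14

/-!
# S12: `FreyPackage.frey_no_cofixed_large` (milestone row 11)

The mod-p representation of the Frey curve has no Galois-stable cofixed line when p ≥ 17.

The proof rests on `MazurChain/Frey`, `S14`.
-/

set_option autoImplicit false
open WeierstrassCurve WeierstrassCurve.Affine WeierstrassCurve.Affine.Point
open CuspForm ModularFormClass UpperHalfPlane
open FreyPackage

namespace Fermat.Agent.S12

theorem result (P : FreyPackage) (hp : 17 ≤ P.p) : ¬ HasGaloisStableCofixedLine (K := AlgebraicClosure ℚ) ℚ P.freyCurve P.p := by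
  exact FLTAgent.MazurChain.frey_no_cofixed_large P hp
    (@Fermat.Agent.S14.result P.p (Fact.mk P.pp) (by omega))

end Fermat.Agent.S12
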