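-- Statement S16.
import Fermat.Statements.S16
import Fermat.Agent.Eisen.Lower
import Fermat.Agent.Eisen.UpperArith
import Fermat.Agent.Eisen.TwoMain

/-!
# S16: `ModularCurve.natCard_heckeLatticeAlgebra_quotient_eisensteinIdeal_eq_eisensteinNumerator` (milestone row 15)

For every prime p, the index of the image of the Eisenstein ideal in the integral Hecke algebra of
weight 2 and level p equals (p−1)/gcd(p−1, 12).

The proof rests on `Eisen/Lower`, `Eisen/UpperArith`, `Eisen/TwoMain`.
-/

set_option autoImplicit false
open ModularCurve CuspForm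
open ModularCurve

namespace Fermat.Agent.S16

theorem result
    (p : ℕ) [Fact p.Prime] :
    Nat.card (↥(heckeLatticeAlgebra p ∅) ⧸
        Ideal.map ((latticeRestrictHom p ∅).toRingHom.comp (heckeEvalForms p 2))
          (eisensteinIdeal p)) =
      eisensteinNumerator p := by
  exact FLTAgent.Eisen.natCard_quotient_eq_numerator p (FLTAgent.Eisen.exists_congr p)
    (fun d f hd hf => FLTAgent.Eisen.upper_bound_of p f
      (fun h7 g => FLTAgent.Eisen.not_isEisCongr_two_of_seven p h7 g) hd hf)

end Fermat.Agent.S16
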