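-- Statement S19.
import Fermat.Statements.S19
import Fermat.Agent.FlatJ.Main
import Fermat.Agent.Torsion.Equiv

/-!
# S19: `ModularCurve.exists_finiteFlat_model_jZero_torsion` (milestone row 18)

For a prime ℓ not dividing the level N and every k, the ℓᵏ-torsion of J₀(N) is,
Galois-equivariantly, the ℚ̄-points of a finite flat commutative group scheme (cocommutative Hopf
algebra) over ℤ₍ℓ₎.

The proof rests on `FlatJ/Main`, `Torsion/Equiv`.
-/

set_option autoImplicit false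
open ModularCurve
open ModularCurve

namespace Fermat.Agent.S19

theorem result
    (p : ℕ) [NeZero p] (ℓ : ℕ) [Fact ℓ.Prime] (hℓp : ¬ ℓ ∣ p) (k : ℕ) :
    ∃ (H : Type) (_ : CommRing H) (_ : HopfAlgebra (GaloisRep.ratLocalizedAt ℓ) H),
      Module.Finite (GaloisRep.ratLocalizedAt ℓ) H ∧ Module.Flat (GaloisRep.ratLocalizedAt ℓ) H ∧
      Coalgebra.IsCocomm (GaloisRep.ratLocalizedAt ℓ) H ∧
      ∃ e : WithConv (H →ₐ[GaloisRep.ratLocalizedAt ℓ] AlgebraicClosure ℚ) ≃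
          ↥(Submodule.torsionBy ℤ (JZero p) ((ℓ : ℤ) ^ k)),
        (∀ f g, e (f * g) = e f + e g) ∧
        ∀ (σ : AlgebraicClosure ℚ ≃ₐ[ℚ] AlgebraicClosure ℚ)
          (f g : WithConv (H →ₐ[GaloisRep.ratLocalizedAt ℓ] AlgebraicClosure ℚ)),
          (∀ h : H, g h = σ (f h)) → ((e g : JZero p)) = σ • (e f : JZero p) := by
  haveI : NeZero (ℓ ^ k) := ⟨pow_ne_zero _ (Fact.out : ℓ.Prime).ne_zero⟩
  let T := AlgebraicCurve.Pic0.torsion (AlgebraicClosure ℚ) (modularFunctionFieldBar p) (ℓ ^ k)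
  haveI : Finite T := FLTAgent.Torsion.jTorsion_finite (N := p) (ℓ ^ k)
  letI : DistribMulAction (AlgebraicClosure ℚ ≃ₐ[ℚ] AlgebraicClosure ℚ) T :=
    DistribMulAction.compHom _ (arithmeticGalois (modularFunctionFieldFull p))
  obtain ⟨H, i1, i2, h1, h2, h3, e, h4, h5⟩ :=
    FLTAgent.FlatJ.hasModel_of_injective p ℓ hℓp (G := T) (AddSubgroup.subtype _)
      (fun σ x => rfl) Subtype.val_injective
  have hmem : ∀ x : JZero p, x ∈ T ↔ x ∈ Submodule.torsionBy ℤ (JZero p) ((ℓ : ℤ) ^ k) := fun x => by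
    rw [AlgebraicCurve.Pic0.mem_torsion, Submodule.mem_torsionBy_iff, Nat.cast_pow]
  refine ⟨H, i1, i2, h1, h2, h3, e.trans (Equiv.subtypeEquivRight hmem), fun f g => Subtype.ext ?_,
    fun σ f g hfg => ?_⟩
  · show ((e (f * g) : T) : JZero p) = _
    rw [h4]
    rfl
  · show ((e g : T) : JZero p) = _
    rw [h5 σ f g hfg]
    rfl

end Fermat.Agent.S19
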