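-- Statement S20.
import Fermat.Statements.S20
import Fermat.Agent.ModularDiff.Genus

/-!
# S20: `CuspForm.finrank_gamma0_weight_two_eq_genusFormula` (milestone row 19)

dim S₂(Γ₀(N)) equals the classical genus formula for X₀(N).

The proof rests on `ModularDiff/Genus`.
-/

set_option autoImplicit false
open CuspForm

namespace Fermat.Agent.S20

theorem result (N : ℕ) [NeZero N] :
    (Module.finrank ℂ (CuspForm (CongruenceSubgroup.Gamma0 N) 2) : ℚ) = ModularCurve.genusFormula N := by
  exact FLTAgent.ModularDiff.finrank_cuspForm_eq_genusFormula N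

end Fermat.Agent.S20
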