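-- Statement S21.
import Fermat.Statements.S21
import Fermat.Agent.Period.Periods
import Fermat.Agent.HeckeH.Input

/-!
# S21: `ModularCurve.periodHomPair_eichlerShimura` (milestone row 20)

Eichler–Shimura: the period map of level N is injective and its image is exactly the space of
parabolic cohomology classes of Γ₀(N).

The proof rests on `Period/Periods`, `HeckeH/Input`.
-/

set_option autoImplicit false
open ModularCurve

namespace Fermat.Agent.S21

theorem result (N : ℕ) [NeZero N] :
    Function.Injective (ModularCurve.periodHomPair N)
      ∧ LinearMap.range (ModularCurve.periodHomPair N)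
          = ModularCurve.Period.parabolicHoms ℂ (CongruenceSubgroup.Gamma0 N) ℂ := by
  exact ⟨FLTAgent.Period.periodHomPair_injective,
    FLTAgent.Period.range_periodHomPair (FLTAgent.HeckeH.finrank_cuspForm_two_eq N)⟩

end Fermat.Agent.S21
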