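-- Statement S23.
import Fermat.Statements.S23
import Fermat.Agent.IntStr.Main

/-!
# S23: `CuspForm.hasIntegralStructure_two` (milestone row 22)

S₂(Γ₀(N)) has an integral structure (a basis of forms with integral q-expansions, in the prelude's
sense HasIntegralStructure).

The proof rests on `IntStr/Main`.
-/

set_option autoImplicit false
open CuspForm

namespace Fermat.Agent.S23

theorem result (N : ℕ) [NeZero N] : CuspForm.HasIntegralStructure N 2 := by
  exact FLTAgent.IntStr.hasIntegralStructure_weight_two N

end Fermat.Agent.S23
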