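-- Statement S26.
import Fermat.Statements.S26
import Fermat.Agent.AbVarTors.Birational
import Fermat.Agent.AbVarTors.Count

/-!
# S26: `GoodReductionJacobian.RelativeGroupLaw.natCard_isTorsionPoint_eq_pow_of_natCast_ne_zero` (milestone row 25)

A commutative group scheme that is an abelian scheme of relative dimension g over an algebraically
closed field has exactly n^{2g} n-torsion points when n is invertible in the field.

The proof rests on `AbVarTors/Birational`, `AbVarTors/Count`.
-/

set_option autoImplicit false
set_option autoImplicit false
open CategoryTheory CategoryTheory.Limits AlgebraicGeometry NeronModelInfra GoodReductionJacobian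
universe u
open GoodReductionJacobian GoodReductionJacobian.RelativeGroupLaw

namespace Fermat.Agent.S26

theorem result
    (K : Type u) [Field K] [IsAlgClosed K] {A : Scheme.{u}} (f : A ⟶ Spec (CommRingCat.of K))
    (L : RelativeGroupLaw K f) (hc : L.IsCommutative) (hA : AbelianSchemePropertyBundle K f)
    (g : ℕ) [SmoothOfRelativeDimension g f] (n : ℕ) (hn : (n : K) ≠ 0) :
    Nat.card {x : SchemeHomOver (𝟙 (Spec (CommRingCat.of K))) f //
        L.IsTorsionPoint (𝟙 (Spec (CommRingCat.of K))) n x} = n ^ (2 * g) := by
  obtain ⟨D, hD⟩ := FLTAgent.AbVarTors.exists_avData K f L hc hA g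
  rw [hD n]
  exact D.natCard_torsion n hn

end Fermat.Agent.S26
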