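-- Statement S27.
import Fermat.Statements.S27
import Fermat.Agent.Pic0Tors.Complex
import Fermat.Agent.Pic0Tors.Descent.Main

/-!
# S27: `AlgebraicCurve.Pic0.natCard_torsion_pow_eq_pow_two_mul_genusFF_mul_of_charZero` (milestone row 26)

The function field of a curve of genus g over an algebraically closed field of characteristic 0 has
exactly ℓ^{2gk} degree-0 divisor classes killed by ℓᵏ.

The proof rests on `Pic0Tors/Complex`, `Pic0Tors/Descent/Main`.
-/

set_option autoImplicit false
set_option autoImplicit false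
open AlgebraicCurve
open AlgebraicCurve AlgebraicCurve.Pic0

namespace Fermat.Agent.S27

theorem result
    (K F : Type*) [Field K] [Field F] [Algebra K F] [IsAlgClosed K] [CharZero K]
    [IsCurveOver K F] [Algebra.EssFiniteType K F]
    (ℓ : ℕ) [Fact ℓ.Prime] (k : ℕ) :
    Nat.card (Pic0.torsion K F (ℓ ^ k)) = ℓ ^ (2 * genusFF K F * k) := by
  haveI : NeZero (ℓ ^ k) := ⟨pow_ne_zero k (Fact.out : ℓ.Prime).ne_zero⟩
  rw [FLTAgent.Pic0Tors.Descent.natCard_torsion_of_complex
    (fun G _ _ _ n _ => FLTAgent.Pic0Tors.natCard_torsion_complex G n) K F (ℓ ^ k),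
    ← pow_mul, mul_comm k (2 * genusFF K F)]

end Fermat.Agent.S27
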