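-- Statement S28.
import Fermat.Statements.S28
import Fermat.Agent.Reduction.IgusaIntegral

/-!
# S28: `ModularCurve.IgusaScheme.isIntegral_pullback_igusaTo_of_charP` (milestone row 27)

Igusa: for a prime ℓ not dividing N, the base change of the Igusa model of X₀(N) over ℤ₍ℓ₎ to any
field of characteristic ℓ is integral.

The proof rests on `Reduction/IgusaIntegral`.
-/

set_option autoImplicit false
open AlgebraicGeometry CategoryTheory CategoryTheory.Limits ModularCurve ModularCurve.IgusaScheme
noncomputable section
set_option autoImplicit false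
open ModularCurve ModularCurve.IgusaScheme

namespace Fermat.Agent.S28

set_option maxHeartbeats 4000000 in
set_option synthInstance.maxHeartbeats 400000 in
theorem result
    (N : ℕ) [NeZero N] (ℓ : ℕ) [Fact ℓ.Prime] (hℓN : ¬ ℓ ∣ N)
    (K : Type) [Field K] [CharP K ℓ] [Algebra ↥(GaloisRep.ratLocalizedAt ℓ) K] :
    IsIntegral ↑(pullback (igusaTo N ℓ)
      (Spec.map (CommRingCat.ofHom (algebraMap ↥(GaloisRep.ratLocalizedAt ℓ) K)))) := by
  exact FLTAgent.Reduction.isIntegral_pullback_igusaTo N ℓ hℓN K

end Fermat.Agent.S28
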