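-- Statement S33.
import Fermat.Statements.S33
import Fermat.Agent.OrdP.Transfer
import Fermat.Agent.Lower.Lift.Descend
import Fermat.Agent.LocP.Place

/-!
# S33: `CuspForm.HeckeGaloisRepDatum.isOrdinaryAt_of_primeFactors_subset` (milestone row 32)

In a Hecke–Galois datum of level N away from S, with p odd and p exactly dividing N, the Galois
representation is ordinary at p provided its residual representation is.

The proof rests on `OrdP/Transfer`, `Lower/Lift/Descend`, `LocP/Place`.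
-/

set_option autoImplicit false
set_option linter.style.haveILetI false
set_option linter.unusedSimpArgs false
variable {p : ℕ} {N : ℕ} [NeZero N] {S : Finset ℕ}
  {𝒪 : Type} [CommRing 𝒪] [IsDomain 𝒪] [IsDiscreteValuationRing 𝒪]
  [IsAdicComplete (IsLocalRing.maximalIdeal 𝒪) 𝒪]
  {θ : CuspForm.heckeAlgebra N 2 (↑S : Set ℕ) →+* IsLocalRing.ResidueField 𝒪}
  {T : Type} [CommRing T] [IsLocalRing T] [IsNoetherianRing T]
  [IsAdicComplete (IsLocalRing.maximalIdeal T) T] [Algebra 𝒪 T] [IsLocalHom (algebraMap 𝒪 T)]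
  [Module.Finite 𝒪 T] [Module.Free 𝒪 T]
open CuspForm CuspForm.HeckeGaloisRepDatum

namespace Fermat.Agent.S33

open FLTAgent Matrix IsLocalRing
open scoped TensorProduct

local notation "Qb" => AlgebraicClosure ℚ
local notation "Γℚ" => (AlgebraicClosure ℚ ≃ₐ[ℚ] AlgebraicClosure ℚ)

set_option maxHeartbeats 1600000 in
theorem result
    [Finite (IsLocalRing.ResidueField 𝒪)] [CharZero 𝒪]
    (hp : p.Prime) (hp2 : p ≠ 2) (hp𝒪 : (p : 𝒪) ∈ IsLocalRing.maximalIdeal 𝒪) (hN : p ∣ N ∧ ¬ p ^ 2 ∣ N)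
    (hNS : ∀ q : ℕ, q.Prime → q ∣ N → q ∈ S)
    (H : CuspForm.HeckeGaloisRepDatum N (↑S : Set ℕ) 𝒪 θ T)
    (hres : (GaloisRepAdic.ofResidualGaloisRep H.ρ.residual).IsOrdinaryAt p) :
    H.ρ.IsOrdinaryAt p := by
  classical
  haveI : Fact p.Prime := ⟨hp⟩
  obtain ⟨M, rfl⟩ : ∃ M, N = M * p := ⟨N / p, (Nat.div_mul_cancel hN.1).symm⟩
  haveI : NeZero M := ⟨left_ne_zero_of_mul (NeZero.ne (M * p))⟩
  have hpM : ¬ p ∣ M := fun hd => hN.2 (by rw [sq]; exact Nat.mul_dvd_mul_right hd p)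
  have hpS : p ∈ S := hNS p hp (dvd_mul_left p M)
  have hatt : Local.IsAttached H.π H.ρ p :=
    ⟨hpS, hNS, Reps.natCast_mem_maximalIdeal hp𝒪, H.charpoly_frob⟩
  have habs := H.residual_absIrr
  haveI : CharP (ResidueField 𝒪) p := (CharP.charP_iff_prime_eq_zero hp).mpr (by
    rw [← map_natCast (residue 𝒪), residue_eq_zero_iff]; exact hp𝒪)
  -- the residue fields agree
  let φ : ResidueField 𝒪 →+* ResidueField T := ResidueField.map (algebraMap 𝒪 T)
  have hφ : Function.Bijective φ := ⟨φ.injective, fun y => by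
    obtain ⟨a, rfl⟩ := H.residue_surjective y
    exact ⟨residue 𝒪 a, ResidueField.map_residue _ _⟩⟩
  let e : ResidueField T →+* ResidueField 𝒪 := (RingEquiv.ofBijective φ hφ).symm.toRingHom
  have heφ : ∀ x, e (φ x) = x := (RingEquiv.ofBijective φ hφ).symm_apply_apply
  -- lifts of the residual eigenvalues
  have hlN : ∀ l : OrdP.Fam S, ¬ (l.1 : ℕ) ∣ M * p := fun l hd => l.2 (hNS _ l.1.2 hd)
  choose ã hã using fun l : OrdP.Fam S =>
    IsLocalRing.residue_surjective (θ (heckeAlgebra.T l.1.2 (hlN l) (mod_cast l.2)))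
  have hã' : ∀ (l : OrdP.Fam S) (hd : ¬ (l.1 : ℕ) ∣ M * p),
      H.π (heckeAlgebra.T l.1.2 hd (mod_cast l.2)) - algebraMap 𝒪 T (ã l) ∈ maximalIdeal T :=
    fun l hd => by
      rw [← residue_eq_zero_iff, map_sub, H.residue_π, ← ResidueField.map_residue, hã, sub_self]
  intro P hP
  -- the residual matrices in an adapted basis
  obtain ⟨L, ⟨b, hLb⟩, hD₀, hI₀⟩ : ∃ L : Submodule (ResidueField T) H.ρ.residual.V,
      (∃ b : Module.Basis (Fin 2) (ResidueField T) H.ρ.residual.V, L = ResidueField T ∙ b 0) ∧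
      (∀ σ ∈ P.decompositionSubgroup ℚ, ∀ v ∈ L, H.ρ.residual.ρ σ v ∈ L) ∧
      (∀ σ ∈ P.inertiaSubgroupIn ℚ, ∀ v : H.ρ.residual.V, H.ρ.residual.ρ σ v - v ∈ L) := hres P hP
  have hmem : ∀ v : H.ρ.residual.V, v ∈ L → b.repr v 1 = 0 := fun v hv => by
    rw [hLb, Submodule.mem_span_singleton] at hv
    obtain ⟨c, rfl⟩ := hv
    simp
  let Mk : Deform.MatRep (ResidueField T) :=
    (LinearMap.toMatrixAlgEquiv b).toAlgHom.toRingHom.toMonoidHom.comp H.ρ.residual.ρ
  let M₀ : Deform.MatRep (ResidueField 𝒪) := Deform.mapRep e Mk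
  have hentry : ∀ σ r c, M₀ σ r c = e (b.repr (H.ρ.residual.ρ σ (b c)) r) := fun σ r c => by
    show e (LinearMap.toMatrixAlgEquiv b (H.ρ.residual.ρ σ) r c) = _
    rw [LinearMap.toMatrixAlgEquiv_apply]
  have hdet0 : ∀ σ, (M₀ σ).det = e (residue T (LinearMap.det (H.ρ.ρ σ))) := fun σ => by
    show (e.mapMatrix (LinearMap.toMatrixAlgEquiv b (H.ρ.residual.ρ σ))).det = _
    rw [← RingHom.map_det]
    exact congrArg e ((LinearMap.det_toMatrix b _).trans (LinearMap.det_baseChange _))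
  have htr0 : ∀ σ, (M₀ σ).trace = e (residue T (LinearMap.trace T H.ρ.V (H.ρ.ρ σ))) := fun σ => by
    show (e.mapMatrix (LinearMap.toMatrixAlgEquiv b (H.ρ.residual.ρ σ))).trace = _
    refine (AddMonoidHom.map_trace e.toAddMonoidHom _).symm.trans (congrArg e ?_)
    exact (LinearMap.trace_eq_matrix_trace (ResidueField T) b _).symm.trans
      (LinearMap.trace_baseChange _ _)
  have hfin0 : TW.FactorsFinite M₀ := by
    obtain ⟨K, hK, h⟩ := H.ρ.residual.factorsThroughFiniteLevel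
    refine ⟨K, hK, fun σ hσ => ?_⟩
    show e.mapMatrix (LinearMap.toMatrixAlgEquiv b (H.ρ.residual.ρ σ)) = 1
    rw [h σ hσ, map_one, map_one]
  have hdetM : TW.DetCyclotomic M₀ p := fun σ a ha => by
    haveI : NeZero (p ^ 1) := ⟨pow_ne_zero _ hp.ne_zero⟩
    have h1 : residue T (LinearMap.det (H.ρ.ρ σ)) = (a : ResidueField T) := by
      have h2 := hatt.det_eq (le_refl 1) σ
      rw [Reps.cycMod_eq_of_spec 1 σ (fun μ hμ => ha μ (by rwa [pow_one] at hμ)),
        map_natCast, ← map_natCast (Ideal.Quotient.mk (maximalIdeal T ^ 1)),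
        Ideal.Quotient.eq, pow_one, ← residue_eq_zero_iff, map_sub, sub_eq_zero, map_natCast] at h2
      exact h2
    rw [hdet0, h1, map_natCast]
  have hspan0 : Submodule.span (ResidueField 𝒪) (Set.range M₀) = ⊤ := by
    have hk : ∀ X : Module.End (ResidueField T) H.ρ.residual.V,
        e.mapMatrix (LinearMap.toMatrixAlgEquiv b X) ∈
          Submodule.span (ResidueField 𝒪) (Set.range M₀) := by
      intro X
      have hX : X ∈ Submodule.span (ResidueField T) (Set.range H.ρ.residual.ρ) :=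
        GalCommon.span_range_eq_top_residual H.ρ.residual habs ▸ Submodule.mem_top
      induction hX using Submodule.span_induction with
      | mem X hX => obtain ⟨σ, rfl⟩ := hX; exact Submodule.subset_span ⟨σ, rfl⟩
      | zero => rw [map_zero, map_zero]; exact zero_mem _
      | add X Y _ _ hX hY => rw [map_add, map_add]; exact add_mem hX hY
      | smul c X _ hX =>
        rw [map_smul]
        convert Submodule.smul_mem _ (e c) hX using 1
        ext r s
        simp
    rw [eq_top_iff]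
    intro X _
    rw [Matrix.matrix_eq_sum_single X]
    refine sum_mem fun r _ => sum_mem fun s _ => ?_
    have h := Submodule.smul_mem _ (X r s) (hk ((LinearMap.toMatrixAlgEquiv b).symm
      (Matrix.single r s 1)))
    rw [AlgEquiv.apply_symm_apply] at h
    convert h using 1
    ext i j
    by_cases hrs : r = i ∧ s = j <;> simp [Matrix.single_apply, hrs]
  have hb0 : b 0 ∈ L := hLb ▸ Submodule.mem_span_singleton_self _
  obtain ⟨g, ϖ, ζ, τ₀, hNF⟩ := LocP.exists_redNormal (d := ![1, 0]) hdetM hP hp2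
    (fun h0 => one_ne_zero (congrFun h0 0))
    (fun σ hσ => by
      have h10 : M₀ σ 1 0 = 0 := by rw [hentry, hmem _ (hD₀ σ hσ _ hb0), map_zero]
      simp [LocP.det2, Matrix.mulVec, dotProduct, Fin.sum_univ_two, h10])
    (fun σ hσ x => by
      have h0 : ∀ c, M₀ σ 1 c - (if c = 1 then 1 else 0) = 0 := fun c => by
        have := congrArg e (hmem _ (hI₀ σ hσ (b c)))
        rw [map_sub, Finsupp.sub_apply, map_sub, map_zero, ← hentry] at this
        fin_cases c <;> simpa using this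
      have h10 : M₀ σ 1 0 = 0 := by simpa using h0 0
      have h11 : M₀ σ 1 1 = 1 := sub_eq_zero.mp (by simpa using h0 1)
      simp [LocP.det2, Matrix.mulVec, dotProduct, Fin.sum_univ_two, h10, h11])
  have hsys : OrdP.SysData p (LocP.conjRep g M₀) fun l => residue 𝒪 (ã l) := by
    refine ⟨hpS, LocP.factorsFinite_conjRep g hfin0, LocP.detCyclotomic_conjRep g hdetM, ?_,
      fun l B σ hB hσ => ?_⟩
    · rw [eq_top_iff]
      intro X _
      have hX : (g⁻¹).val * X * g.val ∈ Submodule.span (ResidueField 𝒪) (Set.range M₀) :=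
        hspan0 ▸ Submodule.mem_top
      have h := Submodule.mem_map_of_mem (f := (LinearMap.mulLeft (ResidueField 𝒪) g.val).comp
        (LinearMap.mulRight (ResidueField 𝒪) (g⁻¹).val)) hX
      rw [Submodule.map_span, ← Set.range_comp] at h
      simp only [LinearMap.comp_apply, LinearMap.mulLeft_apply, LinearMap.mulRight_apply, mul_assoc,
        Units.mul_inv, mul_one, Units.mul_inv_cancel_left] at h
      have e' : (⇑((LinearMap.mulLeft (ResidueField 𝒪) g.val).comp
          (LinearMap.mulRight (ResidueField 𝒪) (g⁻¹).val)) ∘ ⇑M₀) = ⇑(LocP.conjRep g M₀) :=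
        funext fun σ => (mul_assoc g.val (M₀ σ) (g⁻¹).val).symm
      rwa [e'] at h
    · rw [show (LocP.conjRep g M₀ σ).trace = (M₀ σ).trace from Matrix.trace_units_conj g (M₀ σ),
        htr0, (Reps.trace_det_of_charpoly_eq H.ρ.finrank_eq (H.charpoly_frob (l.1 : ℕ) l.1.2
          (hlN l) (mod_cast l.2) B hB σ hσ)).1, H.residue_π, hã]
      exact heφ _
  obtain ⟨b', hb'⟩ := hsys.exists_injective_commutator (N := M * p) hp2 hNS hNF
  obtain ⟨ex, hex⟩ := OrdP.exists_exponent hp𝒪 ã hsys hp2 hpM hNS hP hNF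
  obtain ⟨f, hf⟩ := OrdP.exists_exponent_rep hp𝒪 ã hatt habs H.residue_surjective hã' hb'
    (s := (P.inertiaSubgroupIn ℚ : Set Γℚ)) hex
  -- the idempotent at the eigenvalue `1` of `τ₀`
  let V := H.ρ.V
  let bV : Module.Basis (Fin 2) T V :=
    (Module.finBasis T V).reindex (finCongr H.ρ.finrank_eq)
  haveI : Nontrivial V := Module.nontrivial_of_finrank_eq_succ (n := 1) H.ρ.finrank_eq
  let F : ℕ → Submodule T V := fun n => ⨅ (k : ℕ) (_ : f k ≤ n), maximalIdeal T ^ k • ⊤
  have hF : ∀ {n v}, v ∈ F n ↔ ∀ k, f k ≤ n → v ∈ maximalIdeal T ^ k • (⊤ : Submodule T V) := by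
    simp [F, Submodule.mem_iInf]
  have htor : ∀ B : ℕ, B ≠ 0 → ∀ y : V, B • y = 0 → y = 0 := fun B hB y hy => by
    refine bV.ext_elem fun i => ?_
    have h1 : (B : 𝒪) • (bV.repr y i) = 0 := by
      rw [Nat.cast_smul_eq_nsmul, ← Finsupp.smul_apply, ← map_nsmul, hy, map_zero,
        Finsupp.zero_apply]
    rw [map_zero, Finsupp.zero_apply]
    exact (smul_eq_zero.mp h1).resolve_left (Nat.cast_ne_zero.mpr hB)
  have hdetτ : LinearMap.det (H.ρ.ρ τ₀) - (-1 : T) ∈ maximalIdeal T := by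
    rw [← residue_eq_zero_iff, map_sub, map_neg, map_one]
    refine (map_eq_zero e).mp ?_
    rw [map_sub, map_neg, map_one, ← hdet0]
    have h1 := (OrdP.trace_det_tau hNF).2
    rw [show (LocP.conjRep g M₀ τ₀).det = (M₀ τ₀).det from Matrix.det_units_conj g (M₀ τ₀)] at h1
    rw [h1, sub_self]
  have hunit : IsUnit ((-1 : T) - 1) := by
    refine IsLocalRing.notMem_maximalIdeal.mp fun h2 => ?_
    obtain ⟨k, hk⟩ := hp.odd_of_ne_two hp2
    refine (IsLocalRing.maximalIdeal.isMaximal T).ne_top ((Ideal.eq_top_iff_one _).mpr ?_)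
    have hpT : (p : T) ∈ maximalIdeal T := Reps.natCast_mem_maximalIdeal hp𝒪
    have h3 := add_mem hpT (Ideal.mul_mem_left _ (k : T) h2)
    rw [hk] at h3
    push_cast at h3
    convert h3 using 1
    ring
  obtain ⟨E, hEE, htr, -, hkill, hker⟩ := Lower.Lift.exists_proj_kills bV
    (AlgHom.id T (Module.End T V)) (fun _ _ h => h) F
    (fun y hy => by
      refine (inferInstance : IsHausdorff (maximalIdeal T) V).haus y fun k => ?_
      rw [SModEq.zero]
      exact hF.mp (hy (f k)) k le_rfl)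
    (fun X n y hy => hF.mpr fun k hk =>
      Submodule.smul_induction_on (hF.mp hy k hk)
        (fun r hr x _ => by
          rw [map_smul]; exact Submodule.smul_mem_smul hr Submodule.mem_top)
        (fun x y hx hy => by rw [map_add]; exact add_mem hx hy))
    htor (H.ρ.ρ τ₀) (-1) hdetτ isUnit_one.neg hunit
    (fun i : P.inertiaSubgroupIn ℚ => H.ρ.ρ i.1 - 1) (i₀ := ⟨τ₀, hNF.tau_mem⟩) rfl one_ne_zero
    (fun i n y => hF.mpr fun k hk => by
      rw [one_smul, AlgHom.coe_id, id_eq, neg_one_smul, sub_neg_eq_add, ← Nat.sub_add_cancel hk,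
        pow_add, mul_assoc, Module.End.mul_apply]
      refine Submodule.smul_induction_on (hf i.1 i.2 k y)
        (fun r hr x _ => by
          rw [map_smul]; exact Submodule.smul_mem_smul hr Submodule.mem_top)
        (fun x y hx hy => by rw [map_add]; exact add_mem hx hy))
  have hee' : (1 - E) * (1 - E) = 1 - E := by simp [mul_sub, sub_mul, hEE]
  have htr' : LinearMap.trace T V (1 - E) = 1 := by
    rw [map_sub, htr, LinearMap.trace_one, H.ρ.finrank_eq]
    norm_num
  obtain ⟨b₂, hrange, hfix⟩ := Lower.Lift.exists_basis_of_idempotent bV (1 - E) hee' htr'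
  have hmemL : ∀ v, v ∈ T ∙ b₂ 0 ↔ E v = 0 := fun v => by
    refine ⟨fun hv => ?_, fun hv => ?_⟩
    · simpa using hfix v hv
    · simpa [hv] using hrange v
  have hσL : ∀ σ ∈ P.inertiaSubgroupIn ℚ, ∀ v, H.ρ.ρ σ v - v ∈ T ∙ b₂ 0 := fun σ hσ v =>
    (hmemL _).mpr (LinearMap.congr_fun (hkill ⟨σ, hσ⟩) v)
  refine ⟨T ∙ b₂ 0, ⟨b₂, rfl⟩, ?_, hσL⟩
  intro σ hσ v hv
  obtain ⟨w, rfl⟩ := hker v ((hmemL v).mp hv)
  have h := hσL _ (LocP.conj_mem_inertia hσ hNF.tau_mem) (H.ρ.ρ σ w)
  rwa [← Module.End.mul_apply (H.ρ.ρ (σ * τ₀ * σ⁻¹)), ← map_mul, inv_mul_cancel_right, map_mul,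
    Module.End.mul_apply, ← map_sub] at h

end Fermat.Agent.S33
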