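-- Statement S34.
import Fermat.Statements.S34
import Fermat.Agent.Local.Rho
import Fermat.Agent.Local.Existence

/-!
# S34: `CuspForm.HeckeGaloisRepDatum.isUnipotentOnInertiaAt_of_dvd_of_not_sq_dvd` (milestone row 33)

In a Hecke–Galois datum of level N away from S, the Galois representation has unipotent inertia at
every prime q ≠ p that exactly divides N.

The proof rests on `Local/Rho`, `Local/Existence`.
-/

set_option autoImplicit false
set_option autoImplicit false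
open IsLocalRing
open CuspForm CuspForm.HeckeGaloisRepDatum

namespace Fermat.Agent.S34

theorem result
    {𝒪 : Type} [CommRing 𝒪] [IsDomain 𝒪] [IsDiscreteValuationRing 𝒪]
    [IsAdicComplete (maximalIdeal 𝒪) 𝒪] [Finite (ResidueField 𝒪)] [CharZero 𝒪]
    {p : ℕ} (hp : p.Prime) (hp𝒪 : (p : 𝒪) ∈ maximalIdeal 𝒪)
    {N : ℕ} [NeZero N] {S : Finset ℕ} (hpS : p ∈ S) (hNS : ∀ q : ℕ, q.Prime → q ∣ N → q ∈ S)
    {θ : CuspForm.heckeAlgebra N 2 (↑S : Set ℕ) →+* ResidueField 𝒪}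
    {T : Type} [CommRing T] [IsLocalRing T] [IsNoetherianRing T]
    [IsAdicComplete (maximalIdeal T) T] [Algebra 𝒪 T] [IsLocalHom (algebraMap 𝒪 T)]
    [Module.Finite 𝒪 T] [Module.Free 𝒪 T]
    (H : CuspForm.HeckeGaloisRepDatum N (↑S : Set ℕ) 𝒪 θ T)
    (q : ℕ) (hq : q.Prime) (hqp : q ≠ p) (hqN : q ∣ N) (hq2 : ¬ q ^ 2 ∣ N) :
    H.ρ.IsUnipotentOnInertiaAt q := by
  haveI : Fact p.Prime := ⟨hp⟩
  haveI : NeZero q := ⟨hq.ne_zero⟩
  obtain ⟨N₀, rfl⟩ := hqN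
  haveI : NeZero N₀ := ⟨right_ne_zero_of_mul (NeZero.ne (q * N₀))⟩
  have hN₀ : ¬ q ∣ N₀ := fun h => hq2 (sq q ▸ Nat.mul_dvd_mul_left q h)
  obtain ⟨M, hM, ⟨D⟩⟩ := FLTAgent.Local.exists_dataOne (p := p) hq hqp N₀ hN₀
  exact FLTAgent.Local.IsAttached.isUnipotentOnInertiaAt (π := H.π)
    ⟨hpS, hNS, FLTAgent.Reps.natCast_mem_maximalIdeal hp𝒪, H.charpoly_frob⟩ hq hqp D

end Fermat.Agent.S34
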