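-- Statement S35.
import Fermat.Statements.S35
import Fermat.Agent.Local.Newform
import Fermat.Agent.Reps.Point

/-!
# S35: `CuspForm.IsNewform.exists_galoisRepAdic_charpoly_frobenius_eq_of_dvd_of_not_sq_dvd` (milestone row 34)

A weight-2 newform of level M has an attached λ-adic Galois representation (λ a prime, coefficients
in a finite extension of any p-adic ring receiving its Hecke eigenvalues) with Frobenius
characteristic polynomial X² − a_ℓX + ℓ at good primes ℓ outside S, and at every prime q ≠ λ exactly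
dividing M a Frobenius characteristic polynomial (X − 1)(X − q) or (X + 1)(X + q).

The proof rests on `Local/Newform`, `Reps/Point`.
-/

set_option autoImplicit false
set_option autoImplicit false
open Polynomial
open CuspForm CuspForm.IsNewform

namespace Fermat.Agent.S35

theorem result
    {M : ℕ} [NeZero M] {g : CuspForm (CongruenceSubgroup.Gamma0 M) 2} (hg : g.IsNewform)
    (lam : ℕ) [Fact lam.Prime]
    (S : Finset ℕ)
    (O' : Type) [CommRing O'] [IsDomain O'] [IsDiscreteValuationRing O']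
    [IsAdicComplete (IsLocalRing.maximalIdeal O') O'] [Finite (IsLocalRing.ResidueField O')]
    [CharZero O'] (hlamO' : (lam : O') ∈ IsLocalRing.maximalIdeal O')
    (chig : CuspForm.heckeAlgebra M 2 (↑S : Set ℕ) →+* ℂ)
    (hchig : ∀ (ℓ : ℕ) (hℓ : ℓ.Prime) (hℓM : ¬ ℓ ∣ M) (hℓS : ℓ ∉ (↑S : Set ℕ)),
      chig (CuspForm.heckeAlgebra.T hℓ hℓM hℓS) = ModularFormClass.qCoeff g ℓ)
    (iota : chig.range →+* O')
    (hlamS : lam ∈ S) (hMS : ∀ q : ℕ, q.Prime → q ∣ M → q ∈ S)
    :
    ∃ (O'' : Type) (_ : CommRing O'') (_ : IsDomain O'') (_ : IsDiscreteValuationRing O'')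
      (_ : IsAdicComplete (IsLocalRing.maximalIdeal O'') O'') (_ : Finite (IsLocalRing.ResidueField O''))
      (_ : CharZero O'') (_ : Algebra O' O'') (_ : Module.Finite O' O'') (_ : IsLocalHom (algebraMap O' O'')),
      Function.Injective (algebraMap O' O'') ∧
      ∃ ρ : GaloisRepAdic O'',
        (∀ (ℓ : ℕ) (hℓ : ℓ.Prime) (hℓM : ¬ ℓ ∣ M) (hℓS : ℓ ∉ (↑S : Set ℕ)),
          ∀ A : ValuationSubring (AlgebraicClosure ℚ), A.LiesOverPrime ℓ →
            ∀ σ : AlgebraicClosure ℚ ≃ₐ[ℚ] AlgebraicClosure ℚ, A.IsFrobeniusAt σ ℓ →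
              LinearMap.charpoly (ρ.ρ σ) =
                X ^ 2 - C (algebraMap O' O'' ((iota.comp chig.rangeRestrict) (CuspForm.heckeAlgebra.T hℓ hℓM hℓS))) * X
                  + C ((ℓ : O''))) ∧
        (∀ q : ℕ, q.Prime → q ≠ lam → q ∣ M → ¬ q ^ 2 ∣ M →
          ∀ A : ValuationSubring (AlgebraicClosure ℚ), A.LiesOverPrime q →
            ∀ σ : AlgebraicClosure ℚ ≃ₐ[ℚ] AlgebraicClosure ℚ, A.IsFrobeniusAt σ q →
              LinearMap.charpoly (ρ.ρ σ) = X ^ 2 - C ((q : O'') + 1) * X + C ((q : O'')) ∨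
              LinearMap.charpoly (ρ.ρ σ) = X ^ 2 + C ((q : O'') + 1) * X + C ((q : O''))) := by
  obtain ⟨G⟩ := FLTAgent.Reps.nonempty_galModel M lam
  obtain ⟨O'', _, _, _, _, _, _, _, _, _, hinj, ρ, hρ, -⟩ :=
    G.exists_rep_of_point S hlamS O' hlamO' (iota.comp chig.rangeRestrict)
  refine ⟨O'', inferInstance, inferInstance, inferInstance, inferInstance, inferInstance,
    inferInstance, inferInstance, inferInstance, inferInstance, hinj, ρ, hρ,
    fun q hq hql hqM hq2 A hA F hF => ?_⟩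
  have h : FLTAgent.Local.IsAttached (((algebraMap O' O'').comp iota).comp chig.rangeRestrict) ρ lam :=
    ⟨hlamS, hMS, by rw [← map_natCast (algebraMap O' O'')]; exact map_nonunit _ _ hlamO', hρ⟩
  rw [FLTAgent.Reps.charpoly_of_finrank_eq_two ρ.finrank_eq, h.det_frobenius hq hql hA hF]
  rcases FLTAgent.Local.trace_frobenius_newform hg hchig ((algebraMap O' O'').comp iota) h hq hql
    hqM hq2 hA hF with e | e <;> rw [e]
  · exact Or.inl rfl
  · exact Or.inr (by rw [map_neg, neg_mul, sub_neg_eq_add])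


end Fermat.Agent.S35
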