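-- Statement S37.
import Fermat.Statements.S37
import Fermat.Agent.Kronecker.Specialization

/-!
# S37: `ModularCurve.specializationExists_JZero` (milestone row 36)

Eichler–Shimura congruence relation, in the prelude's packaged form SpecializationExists: for all N
and p, if the Hecke operators on J₀(N) commute with each other and with Galois, then at every prime
ℓ not dividing Np there is a good-reduction specialization of J₀(N) on which Frobenius F satisfies
F² − T_ℓF + ℓ = 0.

The proof rests on `Kronecker/Specialization`.
-/

set_option autoImplicit false
open ModularCurve

namespace Fermat.Agent.S37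

theorem result (N p : ℕ) [NeZero N] (hcomm : ModularCurve.HeckeOperatorsCommuteBar N) : letI := ModularCurve.heckeModuleBar N; ∀ (_ : SMulCommClass (AlgebraicClosure ℚ ≃ₐ[ℚ] AlgebraicClosure ℚ) ModularCurve.HeckeAlg (ModularCurve.JZero N)), ModularCurve.SpecializationExists (K := ℚ) (L := AlgebraicClosure ℚ) N p (ModularCurve.JZero N) :=
  FLTAgent.Kronecker.specializationExists N p hcomm

end Fermat.Agent.S37
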