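-- Statement S38.
import Fermat.Statements.S38
import Fermat.Agent.Lower.Lift.ScalarDiv

/-!
# S38: `WeierstrassCurve.isResiduallyModularOfLevel_div_of_isUnramifiedAt_sqf` (milestone row 37)

Level lowering at q (general form): for an odd prime p and a semistable curve with irreducible mod-p
representation that is residually modular of a squarefree level M and unramified at a prime q ≠ p
dividing M, it is residually modular of level M/q.

The proof rests on `Lower/Lift/ScalarDiv`.
-/

set_option autoImplicit false
set_option autoImplicit false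
open WeierstrassCurve WeierstrassCurve.Affine WeierstrassCurve.Affine.Point
open WeierstrassCurve

namespace Fermat.Agent.S38

theorem result
    (p : ℕ) [Fact p.Prime] (_hp2 : p ≠ 2) (W : WeierstrassCurve ℤ) (_hΔ : W.Δ ≠ 0)
    (_hW : W.IsSemistableModel)
    (hcard₁ : Nat.card (Submodule.torsionBy ℤ
      ((W.map (Int.castRingHom ℚ))⁄(AlgebraicClosure ℚ)).Point p) = p ^ 2)
    (hker : GaloisFactorsThroughFiniteLevel
      (WeierstrassCurve.Affine.Point.galoisRepModuleEnd (K := AlgebraicClosure ℚ) ℚ
        (W.map (Int.castRingHom ℚ)) p))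
    (_hirr : W.ModRepIsIrreducible p) (M q : ℕ) (hq : q.Prime) (hqp : q ≠ p)
    (hqM : q ∣ M) (hq2 : ¬ q ^ 2 ∣ M) (hM : Squarefree M)
    (hunr : ((W.map (Int.castRingHom ℚ)).residualGaloisRepOf p hcard₁ hker).IsUnramifiedAt q)
    (hres : W.IsResiduallyModularOfLevel p M) :
    W.IsResiduallyModularOfLevel p (M / q) := by
  haveI : NeZero M := ⟨hM.ne_zero⟩
  exact FLTAgent.Lower.Lift.isResiduallyModularOfLevel_div_of_unramified _hp2 _hΔ _hW _hirr hM hq
    hqp hqM (fun A hA σ hσ x => LinearMap.congr_fun (hunr A hA σ hσ) x) hres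

end Fermat.Agent.S38
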