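-- Statement S40.
import Fermat.Statements.S40
import Fermat.Agent.AtP.Lower
import Fermat.Agent.AtP.ThreeReg

/-!
# S40: `WeierstrassCurve.isResiduallyModularOfLevel_div_of_isGoodPrimeFor` (milestone row 38)

Mazur's principle at p (good reduction form): for an odd prime p and a curve with good reduction
at p whose mod-p representation is irreducible and residually modular of a level M exactly
divisible by p, it is residually modular of level M/p.

The proof rests on `AtP/Lower`, `AtP/ThreeReg`.
-/

set_option autoImplicit false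
open WeierstrassCurve

namespace Fermat.Agent.S40

theorem result
    (W : WeierstrassCurve ℤ) (hΔ : W.Δ ≠ 0)
    {p : ℕ} (hp : p.Prime) (hp2 : p ≠ 2)
    (hgood : W.IsGoodPrimeFor p)
    (hirr : W.ModRepIsIrreducible p)
    {M : ℕ} (hM : 0 < M) (hpM : p ∣ M) (hp2M : ¬ p ^ 2 ∣ M)
    (hmod : W.IsResiduallyModularOfLevel p M) :
    W.IsResiduallyModularOfLevel p (M / p) :=
  FLTAgent.AtP.isResiduallyModularOfLevel_div_prime W hΔ hp hp2 hirr
    (fun _ hA => FLTAgent.AtP.nonempty_ramData_good W hΔ hp hp2 hgood hA)
    hM hpM hp2M hmod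
    (fun _ _ hL A hA f h1 h2 h3 =>
      FLTAgent.AtP.isResiduallyModularOfLevel_of_qDlog_three A W hL hA f h1 h2 h3)

end Fermat.Agent.S40
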