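-- Statement S41.
import Fermat.Statements.S41
import Fermat.Agent.Ihara.Lift
import Fermat.Agent.Ihara.NonEisenstein

/-!
# S41: `WeierstrassCurve.exists_newAt_congruentEigenform_of_levelRaisingCongruence` (milestone row 39)

Level raising (Ribet, Diamond–Taylor): if a weight-2 normalised eigenform of level N is congruent
modulo a maximal ideal over an odd prime p to an elliptic curve with irreducible mod-p
representation, and a_{q'}² ≡ (q'+1)² for a prime q' not dividing Np, then some weight-2 eigenform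
of level Nq', new at q', is congruent to the curve as well.

The proof rests on `Ihara/Lift`, `Ihara/NonEisenstein`.
-/

set_option autoImplicit false
open WeierstrassCurve WeierstrassCurve.Affine WeierstrassCurve.Affine.Point
open scoped CongruenceSubgroup
open WeierstrassCurve

namespace Fermat.Agent.S41

theorem result
    (E : WeierstrassCurve ℚ) [E.IsElliptic] {W : WeierstrassCurve ℤ} (hW : W.IsIntegralModelOf E)
    {p N q' : ℕ} (hp : p.Prime) (hp2 : p ≠ 2) (hN : 0 < N) (hq' : q'.Prime) (hq'N : ¬ q' ∣ N) (hq'p : q' ≠ p)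
    (hirr : GaloisRepIsIrreducible (K := AlgebraicClosure ℚ) ℚ E p)
    (f : CuspForm (CongruenceSubgroup.Gamma0 N) 2) (𝔪 : Ideal (integralClosure ℤ ℂ))
    (hf : f.IsNormalizedEigenform) (hmax : 𝔪.IsMaximal) (hpm : (p : integralClosure ℤ ℂ) ∈ 𝔪)
    (hcong : ∀ ℓ : ℕ, ℓ.Prime → W.IsGoodPrimeFor ℓ → ¬ ℓ ∣ N → ℓ ≠ p →
      ∃ a : integralClosure ℤ ℂ, (a : ℂ) = ModularFormClass.qCoeff f ℓ ∧
        a - ((W.apOfModel ℓ : ℤ) : integralClosure ℤ ℂ) ∈ 𝔪)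
    (hLR : ∃ a : integralClosure ℤ ℂ, (a : ℂ) = ModularFormClass.qCoeff f q' ∧
      a ^ 2 - ((q' : integralClosure ℤ ℂ) + 1) ^ 2 ∈ 𝔪) :
    ∃ (g : CuspForm (CongruenceSubgroup.Gamma0 (N * q')) 2) (𝔪' : Ideal (integralClosure ℤ ℂ)),
      g.IsNormalizedEigenform ∧ 𝔪'.IsMaximal ∧ (p : integralClosure ℤ ℂ) ∈ 𝔪' ∧
      (∀ ℓ : ℕ, ℓ.Prime → W.IsGoodPrimeFor ℓ → ¬ ℓ ∣ N * q' → ℓ ≠ p →
        ∃ a : integralClosure ℤ ℂ, (a : ℂ) = ModularFormClass.qCoeff g ℓ ∧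
          a - ((W.apOfModel ℓ : ℤ) : integralClosure ℤ ℂ) ∈ 𝔪') ∧
      g.IsNewAt q' := by
  haveI : Fact p.Prime := ⟨hp⟩
  haveI : Fact q'.Prime := ⟨hq'⟩
  haveI : NeZero N := ⟨hN.ne'⟩
  obtain ⟨C, hC⟩ := id hW
  have hΔ0 : W.Δ ≠ 0 := by
    intro h
    have h1 := (C • E).isUnit_Δ
    rw [hC, WeierstrassCurve.map_Δ, h, _root_.map_zero] at h1
    exact not_isUnit_zero h1
  obtain ⟨ℓ, hℓ, hℓB, hℓp, hgood, hne⟩ := FLTAgent.Ihara.exists_not_eisenstein W hΔ0 hp2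
    (FLTAgent.Ihara.modRepIsIrreducible_of_model hW hirr) (insert 2 (N * q').primeFactors)
  simp only [Finset.mem_insert, Nat.mem_primeFactors, not_or, not_and] at hℓB
  have hℓNq : ¬ ℓ ∣ N * q' := fun hd => hℓB.2 hℓ hd (mul_ne_zero hN.ne' hq'.ne_zero)
  obtain ⟨g, 𝔪', hg, hm, hp', hcong', hnew⟩ := FLTAgent.Ihara.exists_newAt_of_congruence (p := p)
    hq' hf hmax hpm W.apOfModel {ℓ | W.IsGoodPrimeFor ℓ ∧ ℓ ≠ p}
    (fun ℓ h1 h2 h3 => hcong ℓ h1 h3.1 h2 h3.2) hLR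
    ⟨ℓ, hℓ, hℓB.1, hℓNq, ⟨hgood, hℓp⟩, hne⟩ hq'N
  exact ⟨g, 𝔪', hg, hm, hp', fun l h1 h2 h3 h4 => hcong' l h1 h3 ⟨h2, h4⟩, hnew⟩

end Fermat.Agent.S41
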