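-- Statement S42.
import Fermat.Statements.S42
import Fermat.Agent.Reps.Eigenform
import Fermat.Agent.Reps.Existence
import Fermat.Agent.EllTorsion.Galois
import Fermat.Agent.EllP.Frey

/-!
# S42: `FreyPackage.eigenformResidualAttachmentAtFamily` (milestone row 40)

For the Frey package's prime p and every level M > 0, the prelude property
EigenformResidualAttachmentAt M holds: every weight-2 normalised eigenform on Γ₀(M) and maximal
ideal over p has an attached 2-dimensional residual Galois representation with the expected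
Frobenius traces and determinants, factoring through a finite Galois extension together with the
Frey representation.

The proof rests on `Reps/Eigenform`, `Reps/Existence`, `EllTorsion/Galois`, `EllP/Frey`.
-/

set_option autoImplicit false
open FreyPackage

namespace Fermat.Agent.S42

theorem result (P : FreyPackage) :
    ∀ M : ℕ, 0 < M → P.EigenformResidualAttachmentAt M := by
  intro M hM g hg 𝔪 h𝔪 hp𝔪
  haveI : NeZero M := ⟨hM.ne'⟩
  haveI : Fact P.p.Prime := ⟨P.pp⟩
  haveI := h𝔪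
  letI := Ideal.Quotient.field 𝔪
  haveI : CharP (integralClosure ℤ ℂ ⧸ 𝔪) P.p :=
    (CharP.charP_iff_prime_eq_zero P.pp).mpr (by
      rw [← map_natCast (Ideal.Quotient.mk 𝔪), Ideal.Quotient.eq_zero_iff_mem]
      exact hp𝔪)
  letI : Algebra (ZMod P.p) (integralClosure ℤ ℂ ⧸ 𝔪) := ZMod.algebra _ P.p
  obtain ⟨G⟩ := FLTAgent.Reps.nonempty_galModel M P.p
  obtain ⟨ρ, hatt, -⟩ :=
    FLTAgent.Reps.exists_residual_of_eigenform G hg (Ideal.Quotient.mk 𝔪)
  haveI : P.freyCurve.IsElliptic :=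
    FLTAgent.EllP.frey_map_eq P ▸ FLTAgent.EllTorsion.isElliptic_map_rat (FLTAgent.EllP.frey_Δ_ne_zero P)
  obtain ⟨L₁, hL₁, h₁⟩ := ρ.factorsThroughFiniteLevel
  obtain ⟨L₂, hL₂, h₂⟩ :=
    FLTAgent.EllTorsion.galoisRepModuleEnd_factorsThroughFiniteLevel P.freyCurve P.p P.pp.ne_zero
  let F := IntermediateField.normalClosure ℚ ↥(L₁ ⊔ L₂) (AlgebraicClosure ℚ)
  have hle : L₁ ⊔ L₂ ≤ F := (L₁ ⊔ L₂).le_normalClosure
  haveI : Normal ℚ (AlgebraicClosure ℚ) := FLTAgent.GalCommon.normal_Qbar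
  haveI : Normal ℚ ↥F := normalClosure.normal ℚ _ _
  haveI : IsGalois ℚ ↥F := ⟨⟩
  refine ⟨_, inferInstance, inferInstance, ρ.V, inferInstance, inferInstance, ρ.ρ,
    Ideal.Quotient.mk 𝔪, ↥F, inferInstance, NumberField.mk, inferInstance, inferInstance,
    inferInstance, by rw [Ideal.mk_ker], ρ.finrank_eq, ?_, ?_, ?_⟩
  · intro σ hσ
    have hfix : ∀ x ∈ F, σ x = x := by
      intro x hx
      have h := AlgEquiv.restrictNormal_commutes σ F ⟨x, hx⟩
      rw [show σ.restrictNormal F = 1 from hσ] at h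
      exact h.symm
    exact ⟨h₂ σ fun x hx => hfix x (hle (le_sup_right (b := L₂) hx)),
      h₁ σ fun x hx => hfix x (hle (le_sup_left (a := L₁) hx))⟩
  all_goals
    intro ℓ hℓ hℓM hℓp A hA τ hτ
    have hℓk : (ℓ : integralClosure ℤ ℂ ⧸ 𝔪) ≠ 0 := fun h => hℓp
      ((Nat.prime_dvd_prime_iff_eq P.pp hℓ).mp
        ((CharP.cast_eq_zero_iff (integralClosure ℤ ℂ ⧸ 𝔪) P.p ℓ).mp h)).symm
    obtain ⟨a, ha, hchar⟩ := hatt ℓ hℓ hℓM hℓk A hA τ hτ
    have htd := FLTAgent.Reps.trace_det_of_charpoly_eq ρ.finrank_eq hchar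
  · exact ⟨a, ha, htd.1⟩
  · exact htd.2

end Fermat.Agent.S42
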