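-- Statement S46.
import Fermat.Statements.S46
import Fermat.Agent.Lattice46.Realize
import Fermat.Agent.SwitchTwo.Main

/-!
# S46: `FLT.No2BridgeWiring.weightOneNewformExists_not_cube_dvd` (milestone row 42)

A semistable curve with irreducible mod-3 representation admits an integral Hecke eigensystem with
character χ₋₃, lattice-realised in weight-2 forms of a level that is cube-free away from 3, congruent
to the curve's a_ℓ mod 3. It is deduced from modularity of semistable curves, not from
Langlands–Tunnell.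

The proof rests on `Lattice46/Realize`, `SwitchTwo/Main`.
-/

set_option autoImplicit false
open WeierstrassCurve CuspForm EisensteinWeightOne FormalHecke
open FLT FLT.No2BridgeWiring

namespace Fermat.Agent.S46

theorem result :
    ∀ W : WeierstrassCurve ℤ, W.Δ ≠ 0 → W.IsSemistableModel → W.ModRepIsIrreducible 3 →
      ∃ (N : ℕ) (_ : NeZero N) (a : ℕ → ℤ),
        CuspForm.HasIntegralBasis N ∧
        FormalHecke.IsEigensystem
          (fun ℓ => if ℓ ∣ N then 0 else ((chiNegThree ℓ : ℤ) : ℤ)) a ∧
        CuspForm.IsLatticeRealized N a ∧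
        (∀ q : ℕ, q.Prime → q ≠ 3 → ¬ q ^ 3 ∣ N) ∧
        ∀ ℓ : ℕ, ℓ.Prime → W.IsGoodPrimeFor ℓ → ¬ ℓ ∣ N → ℓ ≠ 3 →
          (3 : ℤ) ∣ (a ℓ - W.apOfModel ℓ) := by
  intro W hΔ hW _
  exact FLTAgent.Lattice46.exists_latticeRealized W W.squarefree_conductorLevel
    (fun q hq hd => (W.prime_dvd_conductorLevel_iff hΔ hq).2 hd)
    (FLTAgent.SwitchTwo.modular_of_semistable W hΔ hW)

end Fermat.Agent.S46
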