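-- Statement S50.
import Fermat.Statements.S50
import Fermat.Agent.SwitchTwo.Main

/-!
# S50: `WeierstrassCurve.isResiduallyModular_three_and_noInertiaFixedTorsion_and_not_cube_dvd_of_isSemistableModel` (milestone row 42)

A semistable curve with irreducible mod-3 representation is residually modular at 3 of some positive
level, cube-free away from 3, with no inertia-fixed 3-torsion when 9 divides the level. It is deduced
from modularity of semistable curves, not from Langlands–Tunnell.

The proof rests on `SwitchTwo/Main`.
-/

set_option autoImplicit false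
set_option autoImplicit false
open WeierstrassCurve WeierstrassCurve.Affine WeierstrassCurve.Affine.Point
open scoped WeierstrassCurve.Affine
open WeierstrassCurve

namespace Fermat.Agent.S50

theorem result
    (W : WeierstrassCurve ℤ) (hΔ : W.Δ ≠ 0) (hW : W.IsSemistableModel)
    (h3 : W.ModRepIsIrreducible 3) :
    ∃ M : ℕ, 0 < M ∧ W.IsResiduallyModularOfLevel 3 M ∧
      (∀ q : ℕ, q.Prime → q ≠ 3 → ¬ q ^ 3 ∣ M) ∧
      (3 ^ 2 ∣ M →
        ∀ A : ValuationSubring (AlgebraicClosure ℚ), A.LiesOverPrime 3 →
          ∀ x : Submodule.torsionBy ℤ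
              ((W.map (Int.castRingHom ℚ))⁄(AlgebraicClosure ℚ)).Point (3 : ℕ),
            (∀ σ ∈ A.inertiaSubgroupIn ℚ, σ • x = x) → x = 0) := by
  refine ⟨W.conductorLevel, W.conductorLevel_pos,
    FLTAgent.Main.residuallyModular_self Nat.prime_three
      (FLTAgent.SwitchTwo.modular_of_semistable W hΔ hW)
      (FLTAgent.Main.bad_dvd_conductorLevel hΔ),
    fun q hq _ => FLTAgent.Main.not_cube_dvd_of_squarefree W.squarefree_conductorLevel hq,
    fun h => ?_⟩
  rw [sq] at h
  exact absurd h
    (Nat.squarefree_iff_prime_squarefree.mp W.squarefree_conductorLevel 3 Nat.prime_three)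

end Fermat.Agent.S50
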