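-- Statement S51.
import Fermat.Statements.S51
import Fermat.Agent.X015.Main

/-!
# S51: `WeierstrassCurve.modThreeOrFiveIrreducible` (milestone row 45)

For a semistable integral Weierstrass curve, at least one of the mod-3 and mod-5 representations is
irreducible.

The proof rests on `X015/Main`.
-/

set_option autoImplicit false
open WeierstrassCurve WeierstrassCurve.Affine WeierstrassCurve.Affine.Point
open CuspForm ModularFormClass UpperHalfPlane
open WeierstrassCurve

namespace Fermat.Agent.S51

theorem result (W : WeierstrassCurve ℤ) (hΔ : W.Δ ≠ 0) (hW : W.IsSemistableModel) : W.ModRepIsIrreducible 3 ∨ W.ModRepIsIrreducible 5 := by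
  exact FLTAgent.X015.three_or_five W hΔ hW

end Fermat.Agent.S51
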