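-- Statement S52.
import Fermat.Statements.S52
import Fermat.Agent.Switch.Choose

/-!
# S52: `WeierstrassCurve.threeFiveSwitchCurve` (milestone row 46)

The 3–5 switch: for a semistable curve with irreducible mod-5 representation there is a semistable
curve with irreducible mod-3 representation whose a_ℓ agree with it mod 5 at all common good primes
ℓ ≠ 5.

The proof rests on `Switch/Choose`.
-/

set_option autoImplicit false
open WeierstrassCurve WeierstrassCurve.Affine WeierstrassCurve.Affine.Point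
open CuspForm ModularFormClass UpperHalfPlane
open WeierstrassCurve

namespace Fermat.Agent.S52

theorem result (W : WeierstrassCurve ℤ) (hΔ : W.Δ ≠ 0) (hW : W.IsSemistableModel) (h5 : W.ModRepIsIrreducible 5) : ∃ W' : WeierstrassCurve ℤ, W'.Δ ≠ 0 ∧ W'.IsSemistableModel ∧ W'.ModRepIsIrreducible 3 ∧ ∀ ℓ : ℕ, ℓ.Prime → W.IsGoodPrimeFor ℓ → W'.IsGoodPrimeFor ℓ → ℓ ≠ 5 → (5 : ℤ) ∣ (W'.apOfModel ℓ - W.apOfModel ℓ) := by
  have _ := h5
  obtain ⟨a, m, hΔ', h3⟩ := FLTAgent.Switch.exists_switchCurve W hΔ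
  exact ⟨FLTAgent.Switch.switchCurve W a m, hΔ', FLTAgent.Switch.switchCurve_isSemistable W a m hW,
    h3, fun ℓ hℓ hg hg' _ => FLTAgent.Switch.switchCurve_congr W a m hℓ hg hg'⟩

end Fermat.Agent.S52
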