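-- Statement S53.
import Fermat.Statements.S53
import Fermat.Agent.Deform.Universal

/-!
# S53: `GaloisRep.nonempty_deformationRingData` (milestone row 47)

For an absolutely irreducible residual representation over the residue field of a complete discrete
valuation ring O and a deformation condition satisfied by it with finite tangent space, a universal
deformation ring (DeformationRingData) exists.

The proof rests on `Deform/Universal`.
-/

set_option autoImplicit false
set_option autoImplicit false
open GaloisRep

namespace Fermat.Agent.S53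

theorem result
    (𝒪 : Type) [CommRing 𝒪] [IsDomain 𝒪] [IsDiscreteValuationRing 𝒪]
    [IsAdicComplete (IsLocalRing.maximalIdeal 𝒪) 𝒪] [Finite (IsLocalRing.ResidueField 𝒪)]
    (ρbar : ResidualGaloisRep (IsLocalRing.ResidueField 𝒪))
    (𝒟 : ∀ ⦃A : Type⦄ [CommRing A] [IsLocalRing A] [Algebra 𝒪 A], GaloisRepAdic A → Prop)
    (habs : ρbar.IsAbsolutelyIrreducible)
    (h𝒟 : GaloisRep.IsDeformationCondition 𝒪 𝒟)
    (hbar : 𝒟 (GaloisRepAdic.ofResidualGaloisRep ρbar))
    (hfin : GaloisRep.TangentFinite 𝒪 ρbar 𝒟) :
    Nonempty (GaloisRep.DeformationRingData 𝒪 ρbar 𝒟) := by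
  exact FLTAgent.Deform.nonempty_deformationRingData_ctx
    { ρbar := ρbar, basis := Module.finBasisOfFinrankEq _ _ ρbar.finrank_eq, 𝒟 := 𝒟,
      habs := habs, h𝒟 := h𝒟, hbar := hbar, hfin := hfin }

end Fermat.Agent.S53
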