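-- Statement S54.
import Fermat.Statements.S54
import Fermat.Agent.GalCommon.Basic

/-!
# S54: `GaloisRep.DeformationRingData.exists_surjective_algHom_of_heckeGaloisRepDatum` (milestone row 48)

R ↠ T: a universal deformation ring maps surjectively onto the coefficient ring T of any
Hecke–Galois datum whose representation satisfies the deformation condition and reduces to the given
residual representation, compatibly with the representations.

The proof rests on `GalCommon/Basic`.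
-/

set_option autoImplicit false
open GaloisRep GaloisRep.DeformationRingData

open scoped TensorProduct
open Polynomial

namespace Fermat.Agent.S54

theorem charpoly_eq_map_of_isEquiv {R T : Type} [CommRing R] [IsLocalRing R] [CommRing T]
    [IsLocalRing T] {φ : R →+* T} {hφ : IsLocalHom φ} {ρ : GaloisRepAdic R} {ρ' : GaloisRepAdic T}
    (h : (ρ.baseChangeAlong φ hφ).IsEquiv ρ') (σ : AlgebraicClosure ℚ ≃ₐ[ℚ] AlgebraicClosure ℚ) :
    LinearMap.charpoly (ρ'.ρ σ) = (LinearMap.charpoly (ρ.ρ σ)).map φ := by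
  obtain ⟨e⟩ := h
  letI : Algebra R T := φ.toAlgebra
  have h1 : ρ'.ρ σ = e.toLinearEquiv.conj ((ρ.baseChangeAlong φ hφ).ρ σ) := by
    refine LinearMap.ext fun y => ?_
    rw [LinearEquiv.conj_apply_apply, e.map_apply, LinearEquiv.apply_symm_apply]
  rw [h1, LinearEquiv.charpoly_conj]
  exact LinearMap.charpoly_baseChange (ρ.ρ σ) T

theorem result {𝒪 : Type} [CommRing 𝒪] [IsDomain 𝒪] [IsDiscreteValuationRing 𝒪] [IsAdicComplete (IsLocalRing.maximalIdeal 𝒪) 𝒪] {ρbar : ResidualGaloisRep (IsLocalRing.ResidueField 𝒪)} {𝒟 : ∀ ⦃A : Type⦄ [CommRing A] [IsLocalRing A] [Algebra 𝒪 A], GaloisRepAdic A → Prop} (D : GaloisRep.DeformationRingData 𝒪 ρbar 𝒟) {N : ℕ} [NeZero N] {S : Set ℕ} {θ : CuspForm.heckeAlgebra N 2 S →+* IsLocalRing.ResidueField 𝒪} {T : Type} [CommRing T] [IsLocalRing T] [IsNoetherianRing T] [IsAdicComplete (IsLocalRing.maximalIdeal T) T] [Algebra 𝒪 T] [IsLocalHom (algebraMap 𝒪 T)] [Module.Finite 𝒪 T] [Module.Free 𝒪 T] (H : CuspForm.HeckeGaloisRepDatum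 N S 𝒪 θ T) (hS : ∀ q : ℕ, q.Prime → q ∣ N → q ∈ S) (h𝒟 : 𝒟 H.ρ) (hres : H.ρ.residual.IsEquiv (ρbar.baseChangeAlong (IsLocalRing.ResidueField.map (algebraMap 𝒪 T)))) : ∃ φ : D.R →ₐ[𝒪] T, Function.Surjective φ ∧ ∃ hφ : IsLocalHom (φ : D.R →+* T), (D.ρ.baseChangeAlong (φ : D.R →+* T) hφ).IsEquiv H.ρ := by
  obtain ⟨φ, ⟨hφ, heq⟩, -⟩ := D.universal T H.residue_surjective H.ρ h𝒟 hres
  refine ⟨φ, ?_, hφ, heq⟩
  have hgen : ∀ t : CuspForm.heckeAlgebra N 2 S, H.π t ∈ φ.range := by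
    rintro ⟨t, ht⟩
    induction ht using Algebra.adjoin_induction with
    | mem x hx =>
      rcases hx with ⟨ℓ, hℓ, hℓN, hℓS, rfl⟩ | ⟨q, hqN, hq, hqS, rfl⟩
      · obtain ⟨A, hA, σ, hσ⟩ := FLTAgent.GalCommon.exists_place_frobenius hℓ
        have h1 := charpoly_eq_map_of_isEquiv heq σ
        rw [H.charpoly_frob ℓ hℓ hℓN hℓS A hA σ hσ] at h1
        have h2 := congrArg (fun P => Polynomial.coeff P 1) h1
        simp only [coeff_add, coeff_sub, coeff_X_pow, coeff_C_mul_X, coeff_C, coeff_map,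
          if_true, show (1 : ℕ) ≠ 2 by decide, one_ne_zero, if_false, zero_sub, add_zero] at h2
        exact ⟨-(LinearMap.charpoly (D.ρ.ρ σ)).coeff 1, by
          rw [map_neg]; exact (congrArg Neg.neg h2.symm).trans (neg_neg _)⟩
      · exact absurd (hS q hq hqN) hqS
    | algebraMap r =>
      exact ⟨(r : D.R), ((map_intCast φ r).trans (map_intCast H.π r).symm).trans
        (congrArg H.π (Subtype.ext (eq_intCast _ r).symm))⟩
    | add x y hx hy ihx ihy =>
      rw [show (⟨x + y, add_mem hx hy⟩ : CuspForm.heckeAlgebra N 2 S) = ⟨x, hx⟩ + ⟨y, hy⟩ from rfl,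
        map_add]
      exact add_mem ihx ihy
    | mul x y hx hy ihx ihy =>
      rw [show (⟨x * y, mul_mem hx hy⟩ : CuspForm.heckeAlgebra N 2 S) = ⟨x, hx⟩ * ⟨y, hy⟩ from rfl,
        map_mul]
      exact mul_mem ihx ihy
  rw [← AlgHom.range_eq_top, eq_top_iff, ← H.adjoin_range_π]
  exact Algebra.adjoin_le (Set.range_subset_iff.mpr hgen)

end Fermat.Agent.S54
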