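-- Statement S57.
import Fermat.Statements.S57
import Fermat.Agent.Small.FreeOfDepth
import Fermat.Agent.Small.PowerSeriesParams

/-!
# S57: `Algebra.PatchingLevel.free_and_ker_eq_span` (milestone row 51)

Patching, descent step: a patching level with trivial relation ideal for a nontrivial R-module M
makes M free and faithful over R and identifies the kernel of the structure map O⟦X₁,…,X_r⟧ → R with
the ideal generated by the r given elements.

The proof rests on `Small/FreeOfDepth`, `Small/PowerSeriesParams`.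
-/

set_option autoImplicit false
open Algebra Algebra.PatchingLevel

namespace Fermat.Agent.S57

open IsLocalRing RingTheory.Sequence

theorem result
    {𝒪 : Type} [CommRing 𝒪] [IsDomain 𝒪] [IsDiscreteValuationRing 𝒪]
    {r : ℕ} {R : Type} [CommRing R] [Algebra 𝒪 R]
    {M : Type} [AddCommGroup M] [Module R M] [Nontrivial M]
    (L : Algebra.PatchingLevel 𝒪 r R M ⊥) :
    Module.Free R M ∧ Module.annihilator R M = ⊥ ∧
      RingHom.ker L.ψ = Ideal.span (Set.range fun i : Fin r => L.φ (MvPowerSeries.X i)) := by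
  obtain ⟨ϖ, hϖ⟩ := IsDiscreteValuationRing.exists_irreducible 𝒪
  let I : Ideal (MvPowerSeries (Fin r) 𝒪) :=
    Ideal.span (Set.range fun i : Fin r => L.φ (MvPowerSeries.X i))
  -- `φ` maps the standard parameters into the maximal ideal
  have hnt : Nontrivial R := Module.nontrivial R M
  have hφX : ∀ i, L.φ (MvPowerSeries.X i) ∈ maximalIdeal (MvPowerSeries (Fin r) 𝒪) := by
    intro i
    rw [mem_maximalIdeal, mem_nonunits_iff]
    intro h
    exact not_isUnit_zero (L.ψ_φ_X i ▸ h.map L.ψ)
  have hC : (MvPowerSeries.C ϖ : MvPowerSeries (Fin r) 𝒪) ∈ maximalIdeal _ := by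
    rw [← FLTAgent.Small.ofList_params 𝒪 hϖ r]
    exact Ideal.subset_span (by simp [FLTAgent.Small.params])
  have hφC : L.φ (MvPowerSeries.C ϖ) = MvPowerSeries.C ϖ := by
    simpa [MvPowerSeries.algebraMap_apply] using L.φ.commutes ϖ
  have hmem : ∀ y ∈ (FLTAgent.Small.params 𝒪 ϖ r).map L.φ,
      y ∈ maximalIdeal (MvPowerSeries (Fin r) 𝒪) := by
    intro y hy
    obtain ⟨x, hx, rfl⟩ := List.mem_map.1 hy
    rcases List.mem_append.1 hx with hx | hx
    · obtain ⟨i, rfl⟩ := List.mem_ofFn.1 hx
      exact hφX i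
    · simp at hx
      rw [hx, hφC]
      exact hC
  -- `N` is finitely generated
  haveI hfin : Module.Finite (MvPowerSeries (Fin r) 𝒪) L.N := by
    refine Module.Finite.of_surjective
      (Fintype.linearCombination (MvPowerSeries (Fin r) 𝒪) L.b) fun x => ?_
    obtain ⟨c, rfl⟩ := L.b_span x
    exact ⟨fun i => L.φ (c i), by simp [Fintype.linearCombination_apply]⟩
  -- `N` is free through `φ`, so the parameters give a regular sequence on `N`
  let e₀ : (Fin L.d → MvPowerSeries (Fin r) 𝒪) →+ L.N :=
    { toFun := fun c => ∑ i, L.φ (c i) • L.b i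
      map_zero' := by simp
      map_add' := fun c c' => by simp [add_smul, Finset.sum_add_distrib] }
  have he₀ : Function.Bijective e₀ := by
    refine ⟨(injective_iff_map_eq_zero e₀).2 fun c hc => ?_, fun x => ?_⟩
    · funext i
      simpa using (L.b_rel c).1 hc i
    · obtain ⟨c, hc⟩ := L.b_span x
      exact ⟨c, hc.symm⟩
  have hreg : IsWeaklyRegular L.N ((FLTAgent.Small.params 𝒪 ϖ r).map L.φ) := by
    have hpi : IsWeaklyRegular (Fin L.d → MvPowerSeries (Fin r) 𝒪)
        (FLTAgent.Small.params 𝒪 ϖ r) := by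
      rw [← (TensorProduct.lid (MvPowerSeries (Fin r) 𝒪)
        (Fin L.d → MvPowerSeries (Fin r) 𝒪)).isWeaklyRegular_congr]
      exact (FLTAgent.Small.isWeaklyRegular_params 𝒪 hϖ.ne_zero r).isWeaklyRegular_rTensor
    refine ((AddEquiv.ofBijective e₀ he₀).isWeaklyRegular_congr ?_).1 hpi
    refine List.forall₂_map_right_iff.mpr (List.forall₂_same.mpr fun a _ c => ?_)
    simp [e₀, Finset.smul_sum, smul_smul]
  -- hence `N` is free over the power series ring
  haveI hfree : Module.Free (MvPowerSeries (Fin r) 𝒪) L.N := by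
    refine FLTAgent.Small.free_of_isWeaklyRegular (r + 1)
      (fun i => (FLTAgent.Small.params 𝒪 ϖ r).get
        (i.cast (FLTAgent.Small.length_params 𝒪 ϖ r).symm)) ?_ _ ?_ hmem hreg
    · rw [← FLTAgent.Small.ofList_params 𝒪 hϖ r]
      refine congrArg Ideal.span (Set.ext fun x => ⟨?_, fun hx => ?_⟩)
      · rintro ⟨i, rfl⟩
        exact List.get_mem _ _
      · obtain ⟨k, rfl⟩ := List.get_of_mem hx
        exact ⟨k.cast (FLTAgent.Small.length_params 𝒪 ϖ r), rfl⟩
    · simp [FLTAgent.Small.length_params]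
  let B := Module.Free.chooseBasis (MvPowerSeries (Fin r) 𝒪) L.N
  haveI : Nontrivial L.N := L.π_surjective.nontrivial
  haveI : Nonempty (Module.Free.ChooseBasisIndex (MvPowerSeries (Fin r) 𝒪) L.N) :=
    B.index_nonempty
  -- coordinates of elements of `I • N` lie in `I`
  have hcoord : ∀ x : L.N, L.π x = 0 → ∀ j, B.repr x j ∈ I := by
    intro x hx j
    refine Submodule.smul_induction_on ((L.ker_π x).1 hx) (fun a ha n _ => ?_) (fun x y hx hy => ?_)
    · rw [map_smul, Finsupp.smul_apply, smul_eq_mul]
      exact I.mul_mem_right _ ha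
    · rw [map_add, Finsupp.add_apply]
      exact I.add_mem hx hy
  have hker : RingHom.ker L.ψ = I := by
    refine le_antisymm (fun a ha => ?_) (Ideal.span_le.2 ?_)
    · obtain ⟨j⟩ := ‹Nonempty (Module.Free.ChooseBasisIndex (MvPowerSeries (Fin r) 𝒪) L.N)›
      have := hcoord (a • B j) (by rw [L.π_smul, RingHom.mem_ker.1 ha, zero_smul]) j
      simpa using this
    · rintro _ ⟨i, rfl⟩
      exact L.ψ_φ_X i
  have hli : LinearIndependent R fun j => L.π (B j) := by
    classical
    rw [Fintype.linearIndependent_iff]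
    intro g hg j
    choose a ha using fun k => L.ψ_surjective (g k)
    have h0 : L.π (∑ k, a k • B k) = 0 := by
      rw [map_sum, ← hg]
      simp [L.π_smul, ha]
    have := hcoord _ h0 j
    rw [B.repr_sum_self, ← hker] at this
    rw [← ha j]
    exact this
  have hsp : ⊤ ≤ Submodule.span R (Set.range fun j => L.π (B j)) := by
    rintro m -
    obtain ⟨x, rfl⟩ := L.π_surjective m
    rw [← B.sum_repr x, map_sum]
    refine Submodule.sum_mem _ fun j _ => ?_
    rw [L.π_smul]
    exact Submodule.smul_mem _ _ (Submodule.subset_span ⟨j, rfl⟩)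
  refine ⟨Module.Free.of_basis (Module.Basis.mk hli hsp), ?_, hker⟩
  rw [eq_bot_iff]
  intro a ha
  obtain ⟨j⟩ := ‹Nonempty (Module.Free.ChooseBasisIndex (MvPowerSeries (Fin r) 𝒪) L.N)›
  have h := Module.mem_annihilator.1 ha (Module.Basis.mk hli hsp j)
  have h2 := congrArg (fun m => (Module.Basis.mk hli hsp).repr m j) h
  rw [Submodule.mem_bot]
  simpa only [map_smul, Module.Basis.repr_self, Finsupp.smul_single, smul_eq_mul, mul_one,
    Finsupp.single_eq_same, map_zero, Finsupp.zero_apply] using h2

end Fermat.Agent.S57
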