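-- Statement S59.
import Fermat.Statements.S59
import Fermat.Agent.SwitchTwo.Main

/-!
# S59: `WeierstrassCurve.modularityLiftingAtConductor_threeFive_of_level_of_not_sq_dvd_of_not_cube_dvd` (milestone row 53)

Modularity lifting (R = T) at p ∈ {3, 5}: a semistable curve whose mod-p representation is
irreducible and residually modular of some level M₀ with p² ∤ M₀ and M₀ cube-free away from p is
modular of exact conductor level (in the prelude's sense). It is deduced from modularity of all
semistable curves; the hypotheses on M₀ are not used in this file.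

The proof rests on `SwitchTwo/Main`.
-/

set_option autoImplicit false
set_option autoImplicit false
open scoped WeierstrassCurve.Affine
open WeierstrassCurve

namespace Fermat.Agent.S59

theorem result (p : ℕ) (hp : p = 3 ∨ p = 5)
    (W : WeierstrassCurve ℤ) (hΔ : W.Δ ≠ 0) (hW : W.IsSemistableModel) (hirr : W.ModRepIsIrreducible p)
    (M₀ : ℕ) [NeZero M₀] (hres₀ : W.IsResiduallyModularOfLevel p M₀)
    (hM₀ : ¬ p ^ 2 ∣ M₀)
    (hM₀3 : ∀ q : ℕ, q.Prime → q ≠ p → ¬ q ^ 3 ∣ M₀) :
    Mlc1IsModularModelOfExactConductorLevel W := by
  exact ⟨W.conductorLevel, W.conductorLevel_pos, W.squarefree_conductorLevel,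
    fun q hq => W.prime_dvd_conductorLevel_iff hΔ hq,
    FLTAgent.SwitchTwo.modular_of_semistable W hΔ hW⟩

end Fermat.Agent.S59
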