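-- Statement S60.
import Fermat.Statements.S60
import Fermat.Agent.SwitchTwo.Main

/-!
# S60: `WeierstrassCurve.modularity_of_semistableModel` (milestone row 54)

Every semistable integral Weierstrass curve with nonzero discriminant is modular over ℚ.

The proof rests on `SwitchTwo/Main`.
-/

set_option autoImplicit false
open WeierstrassCurve WeierstrassCurve.Affine WeierstrassCurve.Affine.Point
open CuspForm ModularFormClass UpperHalfPlane
open WeierstrassCurve

namespace Fermat.Agent.S60

theorem result (W : WeierstrassCurve ℤ) (hΔ : W.Δ ≠ 0) (hW : W.IsSemistableModel) : (W.map (Int.castRingHom ℚ)).IsModular := by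
  exact ⟨W, ⟨1, one_smul _ _⟩, W.conductorLevel, W.conductorLevel_pos,
    FLTAgent.SwitchTwo.modular_of_semistable W hΔ hW⟩

end Fermat.Agent.S60
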